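/-
S25 package BC (helper3770): the universal property of base change along a ring
homomorphism, in the unbundled form used by `GluedModule.BaseChangeData`.
Mathlib only; complete proofs.
-/
import Mathlib

set_option autoImplicit false
set_option linter.style.haveILetI false

universe u

namespace Fermat.Agent.S25.BC.H3770

open scoped TensorProduct

section univ

variable {B B' : Type u} [CommRing B] [CommRing B'] (ψ : B →+* B')
  {N N' : Type u} [AddCommGroup N] [Module B N] [AddCommGroup N'] [Module B' N']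

/-- `j` is `ψ`-semilinear. -/
def IsSemi (j : N →+ N') : Prop := ∀ (b : B) (n : N), j (b • n) = ψ b • j n

/-- The universal property of `B' ⊗[B] N` for an additive map `j : N → N'`
(exactly the shape of `GluedModule.BaseChangeData.univ₁`). -/
def IsUniv (j : N →+ N') : Prop :=
  ∀ (Q : Type u) [AddCommGroup Q] [Module B' Q] (h : N →+ Q),
    (∀ (b : B) (n : N), h (b • n) = ψ b • h n) →
      ∃! h' : N' →ₗ[B'] Q, ∀ n, h' (j n) = h n

variable {ψ}

theorem IsSemi.congr {ψ' : B →+* B'} {j : N →+ N'} (hj : IsSemi ψ j) (h : ∀ b, ψ b = ψ' b) :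
    IsSemi ψ' j := by
  obtain rfl : ψ = ψ' := RingHom.ext h
  exact hj

theorem IsUniv.congr {ψ' : B →+* B'} {j : N →+ N'} (hj : IsUniv ψ j) (h : ∀ b, ψ b = ψ' b) :
    IsUniv ψ' j := by
  obtain rfl : ψ = ψ' := RingHom.ext h
  exact hj

/-- Two linear maps out of a universal object agree if they agree on the image of `j`. -/
theorem IsUniv.hom_ext {j : N →+ N'} (hj : IsUniv ψ j) (hs : IsSemi ψ j)
    {Q : Type u} [AddCommGroup Q] [Module B' Q] (g g' : N' →ₗ[B'] Q)
    (h : ∀ n, g (j n) = g' (j n)) : g = g' := by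
  have hsemi : ∀ (b : B) (n : N), (g'.toAddMonoidHom.comp j) (b • n) =
      ψ b • (g'.toAddMonoidHom.comp j) n := by
    intro b n
    change g' (j (b • n)) = ψ b • g' (j n)
    rw [hs, map_smul]
  obtain ⟨h', -, hu⟩ := hj Q (g'.toAddMonoidHom.comp j) hsemi
  rw [hu g (fun n => h n), hu g' (fun n => rfl)]

/-- The induced linear map. -/
theorem IsUniv.exists_lift {j : N →+ N'} (hj : IsUniv ψ j)
    {Q : Type u} [AddCommGroup Q] [Module B' Q] (h : N →+ Q)
    (hh : ∀ (b : B) (n : N), h (b • n) = ψ b • h n) :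
    ∃ h' : N' →ₗ[B'] Q, ∀ n, h' (j n) = h n :=
  (hj Q h hh).exists

/-- Universal objects are unique up to a linear equivalence compatible with the structure
maps. -/
theorem IsUniv.exists_equiv {N'' : Type u} [AddCommGroup N''] [Module B' N'']
    {j : N →+ N'} (hj : IsUniv ψ j) (hs : IsSemi ψ j)
    {j' : N →+ N''} (hj' : IsUniv ψ j') (hs' : IsSemi ψ j') :
    ∃ e : N' ≃ₗ[B'] N'', ∀ n, e (j n) = j' n := by
  obtain ⟨a, ha⟩ := hj.exists_lift j' hs'
  obtain ⟨b, hb⟩ := hj'.exists_lift j hs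
  have h1 : b ∘ₗ a = LinearMap.id := hj.hom_ext hs _ _ (fun n => by simp [ha, hb])
  have h2 : a ∘ₗ b = LinearMap.id := hj'.hom_ext hs' _ _ (fun n => by simp [ha, hb])
  exact ⟨LinearEquiv.ofLinearMap a b h2 h1, ha⟩

/-- Transport of a universal object along isomorphisms on both sides. -/
theorem IsUniv.of_equiv {M M' : Type u} [AddCommGroup M] [Module B M] [AddCommGroup M']
    [Module B' M'] {j : N →+ N'} (hj : IsUniv ψ j) (e : N ≃ₗ[B] M) (e' : N' ≃ₗ[B'] M')
    (j' : M →+ M') (hjj' : ∀ n, j' (e n) = e' (j n)) : IsUniv ψ j' := by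
  intro Q _ _ h hh
  have hsemi : ∀ (b : B) (n : N), (h.comp e.toLinearMap.toAddMonoidHom) (b • n) =
      ψ b • (h.comp e.toLinearMap.toAddMonoidHom) n := by
    intro b n
    change h (e (b • n)) = ψ b • h (e n)
    rw [map_smul, hh]
  obtain ⟨h₁, hh₁, hu⟩ := hj Q (h.comp e.toLinearMap.toAddMonoidHom) hsemi
  refine ⟨h₁ ∘ₗ e'.symm.toLinearMap, ?_, ?_⟩
  · intro m
    obtain ⟨n, rfl⟩ := e.surjective m
    change h₁ (e'.symm (j' (e n))) = h (e n)
    rw [hjj', LinearEquiv.symm_apply_apply]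
    exact hh₁ n
  · intro g hg
    have : g ∘ₗ e'.toLinearMap = h₁ := hu _ (fun n => by
      change g (e' (j n)) = h (e n)
      rw [← hjj', hg])
    rw [← this]
    ext x
    simp

theorem IsSemi.of_equiv {M M' : Type u} [AddCommGroup M] [Module B M] [AddCommGroup M']
    [Module B' M'] {j : N →+ N'} (hs : IsSemi ψ j) (e : N ≃ₗ[B] M) (e' : N' ≃ₗ[B'] M')
    (j' : M →+ M') (hjj' : ∀ n, j' (e n) = e' (j n)) : IsSemi ψ j' := by
  intro b m
  obtain ⟨n, rfl⟩ := e.surjective m
  rw [← map_smul, hjj', hs, map_smul, hjj']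

/-- Composition of universal objects. -/
theorem IsUniv.comp {B'' : Type u} [CommRing B''] {ψ' : B' →+* B''}
    {N'' : Type u} [AddCommGroup N''] [Module B'' N'']
    {j : N →+ N'} (hj : IsUniv ψ j)
    {j' : N' →+ N''} (hj' : IsUniv ψ' j') (hs' : IsSemi ψ' j') :
    IsUniv (ψ'.comp ψ) (j'.comp j) := by
  intro Q _ _ h hh
  letI : Module B' Q := Module.compHom Q ψ'
  have hsm : ∀ (b' : B') (q : Q), b' • q = ψ' b' • q := fun _ _ => rfl
  have hh' : ∀ (b : B) (n : N), h (b • n) = ψ b • h n := by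
    intro b n
    rw [hh, hsm]
    rfl
  obtain ⟨h₁, hh₁, hu₁⟩ := hj Q h hh'
  have hh₁' : ∀ (b' : B') (n' : N'), h₁.toAddMonoidHom (b' • n') = ψ' b' • h₁.toAddMonoidHom n' := by
    intro b' n'
    change h₁ (b' • n') = ψ' b' • h₁ n'
    rw [map_smul, hsm]
  obtain ⟨h₂, hh₂, hu₂⟩ := hj' Q h₁.toAddMonoidHom hh₁'
  refine ⟨h₂, fun n => ?_, ?_⟩
  · change h₂ (j' (j n)) = h n
    rw [hh₂]
    exact hh₁ n
  · intro g hg
    apply hu₂
    intro n'
    let g₁ : N' →ₗ[B'] Q :=
      { toFun := fun x => g (j' x)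
        map_add' := fun x y => by rw [map_add, map_add]
        map_smul' := fun b' x => by
          rw [hs', map_smul, RingHom.id_apply, hsm] }
    have : g₁ = h₁ := hu₁ g₁ (fun n => hg n)
    change g₁ n' = h₁ n'
    rw [this]

theorem IsSemi.comp {B'' : Type u} [CommRing B''] {ψ' : B' →+* B''}
    {N'' : Type u} [AddCommGroup N''] [Module B'' N'']
    {j : N →+ N'} (hs : IsSemi ψ j) {j' : N' →+ N''} (hs' : IsSemi ψ' j') :
    IsSemi (ψ'.comp ψ) (j'.comp j) := by
  intro b n
  change j' (j (b • n)) = ψ' (ψ b) • j' (j n)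
  rw [hs, hs']


/-- A semilinear map out of `N` factors through a universal object. -/
theorem IsUniv.exists_semi_lift {B'' : Type u} [CommRing B''] {ψ' : B' →+* B''}
    {P : Type u} [AddCommGroup P] [Module B'' P]
    {j : N →+ N'} (hj : IsUniv ψ j) (k : N →+ P) (hk : IsSemi (ψ'.comp ψ) k) :
    ∃ j' : N' →+ P, IsSemi ψ' j' ∧ ∀ n, j' (j n) = k n := by
  letI : Module B' P := Module.compHom P ψ'
  have hsm : ∀ (b' : B') (q : P), b' • q = ψ' b' • q := fun _ _ => rfl
  have hk' : ∀ (b : B) (n : N), k (b • n) = ψ b • k n := by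
    intro b n
    rw [hk b n, hsm]
    rfl
  obtain ⟨h₁, hh₁⟩ := hj.exists_lift k hk'
  refine ⟨h₁.toAddMonoidHom, fun b' n' => ?_, hh₁⟩
  change h₁ (b' • n') = ψ' b' • h₁ n'
  rw [map_smul, hsm]

/-- Cancellation: if `j` and `j' ∘ j` are universal, so is `j'`. -/
theorem IsUniv.of_comp {B'' : Type u} [CommRing B''] {ψ' : B' →+* B''}
    {N'' : Type u} [AddCommGroup N''] [Module B'' N'']
    {j : N →+ N'} (hj : IsUniv ψ j) (hs : IsSemi ψ j)
    {j' : N' →+ N''} (hs' : IsSemi ψ' j') (hc : IsUniv (ψ'.comp ψ) (j'.comp j)) :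
    IsUniv ψ' j' := by
  intro Q _ _ h hh
  have hsemi : ∀ (b : B) (n : N), (h.comp j) (b • n) = (ψ'.comp ψ) b • (h.comp j) n := by
    intro b n
    change h (j (b • n)) = ψ' (ψ b) • h (j n)
    rw [hs, hh]
  obtain ⟨g, hg, hu⟩ := hc Q (h.comp j) hsemi
  letI : Module B' Q := Module.compHom Q ψ'
  have hsm : ∀ (b' : B') (q : Q), b' • q = ψ' b' • q := fun _ _ => rfl
  let g₁ : N' →ₗ[B'] Q :=
    { toFun := fun x => g (j' x)
      map_add' := fun x y => by rw [map_add, map_add]
      map_smul' := fun b' x => by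
        rw [hs', map_smul, RingHom.id_apply, hsm] }
  let g₂ : N' →ₗ[B'] Q :=
    { toFun := fun x => h x
      map_add' := fun x y => by rw [map_add]
      map_smul' := fun b' x => by
        rw [hh, RingHom.id_apply, hsm] }
  have h12 : g₁ = g₂ := hj.hom_ext hs g₁ g₂ (fun n => hg n)
  refine ⟨g, fun n' => DFunLike.congr_fun h12 n', fun g' hg' => ?_⟩
  apply hu
  intro n
  change g' (j' (j n)) = h (j n)
  rw [hg']

variable (ψ)

/-- A linear equivalence is universal over the identity. -/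
theorem isUniv_id {M : Type u} [AddCommGroup M] [Module B M] (e : N ≃ₗ[B] M) :
    IsUniv (RingHom.id B) e.toLinearMap.toAddMonoidHom := by
  intro Q _ _ h hh
  let h₀ : N →ₗ[B] Q :=
    { toFun := h
      map_add' := map_add h
      map_smul' := fun b n => by rw [hh] }
  refine ⟨h₀ ∘ₗ e.symm.toLinearMap, fun n => ?_, fun g hg => ?_⟩
  · change h (e.symm (e n)) = h n
    rw [LinearEquiv.symm_apply_apply]
  · ext m
    obtain ⟨n, rfl⟩ := e.surjective m
    change g (e n) = h (e.symm (e n))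
    rw [LinearEquiv.symm_apply_apply]
    exact hg n

/-- The ring itself: `ψ : B → B'` exhibits `B'` as the base change of `B`. -/
theorem isUniv_ringHom : IsUniv ψ ψ.toAddMonoidHom := by
  intro Q _ _ h hh
  refine ⟨LinearMap.toSpanSingleton B' Q (h 1), fun n => ?_, fun g hg => ?_⟩
  · change ψ n • h 1 = h n
    rw [← hh, smul_eq_mul, mul_one]
  · ext
    have := hg 1
    change g (ψ 1) = h 1 at this
    rw [map_one] at this
    simp [this]

/-- The tensor product is universal. -/
theorem isUniv_tensor :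
    letI := ψ.toAlgebra
    IsUniv ψ ((TensorProduct.mk B B' N 1).toAddMonoidHom) := by
  letI := ψ.toAlgebra
  intro Q _ _ h hh
  letI : Module B Q := Module.compHom Q ψ
  haveI : IsScalarTower B B' Q := ⟨fun b b' q => by
    change (ψ b * b') • q = ψ b • b' • q
    rw [mul_smul]⟩
  let h₀ : N →ₗ[B] Q :=
    { toFun := h
      map_add' := map_add h
      map_smul' := fun b n => by rw [hh]; rfl }
  refine ⟨h₀.liftBaseChange B', fun n => ?_, fun g hg => ?_⟩
  · change h₀.liftBaseChange B' ((1 : B') ⊗ₜ[B] n) = h n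
    rw [LinearMap.liftBaseChange_tmul, one_smul]
    rfl
  · apply TensorProduct.AlgebraTensorModule.ext
    intro b' n
    have h1 : (b' ⊗ₜ[B] n : B' ⊗[B] N) = b' • ((1 : B') ⊗ₜ[B] n) := by
      rw [TensorProduct.smul_tmul', smul_eq_mul, mul_one]
    rw [h1, map_smul, map_smul, LinearMap.liftBaseChange_tmul, one_smul]
    congr 1
    exact hg n

theorem isSemi_tensor :
    letI := ψ.toAlgebra
    IsSemi ψ ((TensorProduct.mk B B' N 1).toAddMonoidHom) := by
  letI := ψ.toAlgebra
  intro b n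
  change (1 : B') ⊗ₜ[B] (b • n) = ψ b • ((1 : B') ⊗ₜ[B] n)
  rw [TensorProduct.tmul_smul]
  rfl

variable {ψ}

/-- A universal object is the tensor product. -/
theorem IsUniv.exists_equiv_tensor {j : N →+ N'} (hj : IsUniv ψ j) (hs : IsSemi ψ j) :
    letI := ψ.toAlgebra
    ∃ e : N' ≃ₗ[B'] (B' ⊗[B] N), ∀ n, e (j n) = (1 : B') ⊗ₜ[B] n := by
  letI := ψ.toAlgebra
  exact hj.exists_equiv hs (isUniv_tensor ψ) (isSemi_tensor ψ)

/-- Invertible modules are stable under base change (universal property form). -/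
theorem IsUniv.invertible {j : N →+ N'} (hj : IsUniv ψ j) (hs : IsSemi ψ j)
    [Module.Invertible B N] : Module.Invertible B' N' := by
  letI := ψ.toAlgebra
  obtain ⟨e, -⟩ := hj.exists_equiv_tensor hs
  exact Module.Invertible.congr e.symm

end univ

end Fermat.Agent.S25.BC.H3770
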