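/-
S25 package BC: (H0) + E_aut core.  This file is helper131's `H131/GlobUnits.lean`, copied into
the BC package with the namespace renamed (board rule).  Core-only.

* `exists_tmul_one_of_lTensor_eq` / `exists_algebraMap_of_map_eq`:
  flat base change of `A₁ ∩ A₂ = k`:  the equaliser of `R ⊗ A₁ ⇉ R ⊗ A₁₂ ⇇ R ⊗ A₂` is `R`.
* `Iso.exists_unit_smul`, `Iso.exists_unit_smul_of_two`:
  automorphisms of a line bundle over a two-chart with `B₁ ∩ B₂ = R` are units of `R`;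
  two isomorphisms of line bundles differ by a unit of `R`.
-/
import Fermat.Agent.S25.Core

set_option autoImplicit false

universe u

namespace Fermat.Agent.S25.BC.H3770

open scoped TensorProduct
open Fermat.Agent.S25

section Glob

variable {k : Type u} [Field k] {A₁ A₂ A₁₂ : Type u} [CommRing A₁] [CommRing A₂] [CommRing A₁₂]
  [Algebra k A₁] [Algebra k A₂] [Algebra k A₁₂]

/-- (H0), linear form: flat base change of `A₁ ∩ A₂ = k`. -/
theorem exists_tmul_one_of_lTensor_eq (r₁ : A₁ →ₐ[k] A₁₂) (r₂ : A₂ →ₐ[k] A₁₂)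
    (inj₂ : Function.Injective r₂)
    (glob : ∀ (a₁ : A₁) (a₂ : A₂), r₁ a₁ = r₂ a₂ → ∃ c : k, a₁ = algebraMap k A₁ c)
    (R : Type u) [AddCommGroup R] [Module k R]
    (x₁ : R ⊗[k] A₁) (x₂ : R ⊗[k] A₂)
    (h : r₁.toLinearMap.lTensor R x₁ = r₂.toLinearMap.lTensor R x₂) :
    ∃ c : R, x₁ = c ⊗ₜ[k] (1 : A₁) ∧ x₂ = c ⊗ₜ[k] (1 : A₂) := by
  classical
  -- the exact sequence `k → A₁ → A₁₂ / r₂ A₂`
  let q : A₁₂ →ₗ[k] A₁₂ ⧸ LinearMap.range r₂.toLinearMap := Submodule.mkQ _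
  let φ : k →ₗ[k] A₁ := Algebra.linearMap k A₁
  let ψ : A₁ →ₗ[k] A₁₂ ⧸ LinearMap.range r₂.toLinearMap := q.comp r₁.toLinearMap
  have hex : Function.Exact φ ψ := by
    intro a
    constructor
    · intro ha
      have : r₁ a ∈ LinearMap.range r₂.toLinearMap := by
        simpa [ψ, q, Submodule.Quotient.mk_eq_zero] using ha
      obtain ⟨a₂, ha₂⟩ := this
      obtain ⟨c, hc⟩ := glob a a₂ ha₂.symm
      exact ⟨c, hc.symm⟩
    · rintro ⟨c, rfl⟩
      have : r₁ (algebraMap k A₁ c) = r₂ (algebraMap k A₂ c) := by simp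
      simp only [ψ, q, φ, LinearMap.comp_apply, Algebra.linearMap_apply, AlgHom.toLinearMap_apply,
        Submodule.mkQ_apply, Submodule.Quotient.mk_eq_zero]
      exact ⟨algebraMap k A₂ c, this.symm⟩
  have hex' : Function.Exact (φ.lTensor R) (ψ.lTensor R) := Module.Flat.lTensor_exact R hex
  have hq : q.comp r₂.toLinearMap = 0 := by
    ext a
    simp only [q, LinearMap.comp_apply, Submodule.mkQ_apply, LinearMap.zero_apply,
      Submodule.Quotient.mk_eq_zero]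
    exact ⟨a, rfl⟩
  have h0 : ψ.lTensor R x₁ = 0 := by
    have : ψ.lTensor R x₁ = q.lTensor R (r₁.toLinearMap.lTensor R x₁) := by
      simp only [ψ, LinearMap.lTensor_comp, LinearMap.comp_apply]
    rw [this, h, ← LinearMap.comp_apply, ← LinearMap.lTensor_comp, hq, LinearMap.lTensor_zero,
      LinearMap.zero_apply]
  obtain ⟨y, hy⟩ := (hex' x₁).mp h0
  refine ⟨TensorProduct.rid k R y, ?_, ?_⟩
  · have hy' : y = (TensorProduct.rid k R y) ⊗ₜ[k] (1 : k) := by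
      conv_lhs => rw [← (TensorProduct.rid k R).symm_apply_apply y]
      rw [TensorProduct.rid_symm_apply]
    rw [← hy, hy']
    simp [φ]
  · have hx₁ : x₁ = (TensorProduct.rid k R y) ⊗ₜ[k] (1 : A₁) := by
      have hy' : y = (TensorProduct.rid k R y) ⊗ₜ[k] (1 : k) := by
        conv_lhs => rw [← (TensorProduct.rid k R).symm_apply_apply y]
        rw [TensorProduct.rid_symm_apply]
      rw [← hy, hy']
      simp [φ]
    have hinj : Function.Injective (r₂.toLinearMap.lTensor R) :=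
      Module.Flat.lTensor_preserves_injective_linearMap _ inj₂
    apply hinj
    rw [← h, hx₁]
    simp

/-- (H0), algebra form, as used by the base-changed chart `B_i = R ⊗[k] A_i`. -/
theorem exists_algebraMap_of_map_eq (r₁ : A₁ →ₐ[k] A₁₂) (r₂ : A₂ →ₐ[k] A₁₂)
    (inj₂ : Function.Injective r₂)
    (glob : ∀ (a₁ : A₁) (a₂ : A₂), r₁ a₁ = r₂ a₂ → ∃ c : k, a₁ = algebraMap k A₁ c)
    (R : Type u) [CommRing R] [Algebra k R]
    (x₁ : R ⊗[k] A₁) (x₂ : R ⊗[k] A₂)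
    (h : Algebra.TensorProduct.map (AlgHom.id R R) r₁ x₁ =
      Algebra.TensorProduct.map (AlgHom.id R R) r₂ x₂) :
    ∃ c : R, x₁ = algebraMap R (R ⊗[k] A₁) c ∧ x₂ = algebraMap R (R ⊗[k] A₂) c := by
  have e₁ : ∀ z, r₁.toLinearMap.lTensor R z = Algebra.TensorProduct.map (AlgHom.id R R) r₁ z := by
    intro z
    induction z using TensorProduct.induction_on with
    | zero => simp
    | tmul r a => simp
    | add a b ha hb => simp [ha, hb]
  have e₂ : ∀ z, r₂.toLinearMap.lTensor R z = Algebra.TensorProduct.map (AlgHom.id R R) r₂ z := by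
    intro z
    induction z using TensorProduct.induction_on with
    | zero => simp
    | tmul r a => simp
    | add a b ha hb => simp [ha, hb]
  obtain ⟨c, h₁, h₂⟩ := exists_tmul_one_of_lTensor_eq r₁ r₂ inj₂ glob R x₁ x₂
    (by rw [e₁, e₂, h])
  exact ⟨c, by rw [h₁, Algebra.TensorProduct.algebraMap_apply]; simp,
    by rw [h₂, Algebra.TensorProduct.algebraMap_apply]; simp⟩

/-- `R → R ⊗[k] A₁` is injective when `A₁` is a nonzero `k`-algebra. -/
theorem algebraMap_tensor_injective [Nontrivial A₁] (R : Type u) [CommRing R] [Algebra k R] :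
    Function.Injective (algebraMap R (R ⊗[k] A₁)) := by
  have hφ : Function.Injective (Algebra.linearMap k A₁) := (algebraMap k A₁).injective
  have hinj : Function.Injective ((Algebra.linearMap k A₁).lTensor R) :=
    Module.Flat.lTensor_preserves_injective_linearMap _ hφ
  intro a b hab
  have : (Algebra.linearMap k A₁).lTensor R (a ⊗ₜ[k] (1 : k)) =
      (Algebra.linearMap k A₁).lTensor R (b ⊗ₜ[k] (1 : k)) := by
    simpa [Algebra.TensorProduct.algebraMap_apply] using hab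
  have h2 := hinj this
  have h3 := congrArg (TensorProduct.rid k R) h2
  simpa using h3

end Glob


section Aut

variable {R : Type u} [CommRing R] {𝔹 : TwoChart R}

/-- `r₂ g` is a unit of `B₁₂`. -/
theorem isUnit_r₂_g (𝔹 : TwoChart R) : IsUnit (𝔹.r₂ 𝔹.g) :=
  IsUnit.of_mul_eq_one _ (by rw [mul_comm]; exact 𝔹.fg)

/-- `r₁ f` is a unit of `B₁₂`. -/
theorem isUnit_r₁_f (𝔹 : TwoChart R) : IsUnit (𝔹.r₁ 𝔹.f) :=
  IsUnit.of_mul_eq_one _ 𝔹.fg

/-- The overlap module of a glued module with `N₁` finite and faithful is faithful over `B₁₂`. -/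
theorem eq_zero_of_smul_N₁₂_eq_zero (N : GluedModule 𝔹) [Module.Finite 𝔹.B₁ N.N₁]
    [FaithfulSMul 𝔹.B₁ N.N₁] (b : 𝔹.B₁₂) (hb : ∀ y : N.N₁₂, b • y = 0) : b = 0 := by
  classical
  obtain ⟨a, n, rfl⟩ := 𝔹.surj₁ b
  have hu : IsUnit (𝔹.r₂ 𝔹.g ^ n) := (isUnit_r₂_g 𝔹).pow n
  -- `r₁ a` kills `N₁₂`
  have ha : ∀ y : N.N₁₂, 𝔹.r₁ a • y = 0 := by
    intro y
    have := hb y
    rw [mul_comm, mul_smul] at this
    exact (hu.smul_eq_zero).mp this
  -- each element of `N₁` is killed by `f ^ m * a` for some `m`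
  have hkill : ∀ x : N.N₁, ∃ m : ℕ, (𝔹.f ^ m * a) • x = 0 := by
    intro x
    have h1 : N.ι₁ (a • x) = 0 := by rw [N.ι₁_smul]; exact ha _
    obtain ⟨m, hm⟩ := N.ker₁ _ h1
    exact ⟨m, by rw [mul_smul]; exact hm⟩
  obtain ⟨S, hS⟩ := (Module.Finite.fg_top : (⊤ : Submodule 𝔹.B₁ N.N₁).FG)
  choose m hm using hkill
  let M : ℕ := S.sup m
  have hM : ∀ x : N.N₁, (𝔹.f ^ M * a) • x = 0 := by
    intro x
    have hx : x ∈ Submodule.span 𝔹.B₁ (S : Set N.N₁) := by rw [hS]; trivial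
    induction hx using Submodule.span_induction with
    | mem x hx =>
      have hle : m x ≤ M := Finset.le_sup (f := m) hx
      obtain ⟨d, hd⟩ := Nat.exists_eq_add_of_le hle
      have : 𝔹.f ^ M * a = 𝔹.f ^ d * (𝔹.f ^ m x * a) := by rw [hd, pow_add]; ring
      rw [this, mul_smul, hm x, smul_zero]
    | zero => simp
    | add x y _ _ hx hy => rw [smul_add, hx, hy, add_zero]
    | smul c x _ hx => rw [smul_comm, hx, smul_zero]
  have h0 : 𝔹.f ^ M * a = 0 := by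
    apply FaithfulSMul.eq_of_smul_eq_smul (α := N.N₁)
    intro x
    rw [hM x, zero_smul]
  have h1 : 𝔹.r₁ 𝔹.f ^ M * 𝔹.r₁ a = 0 := by rw [← map_pow, ← map_mul, h0, map_zero]
  have h2 : 𝔹.r₁ a = 0 := (((isUnit_r₁_f 𝔹).pow M).mul_right_eq_zero).mp h1
  rw [h2, zero_mul]

/-- An automorphism of a line bundle acts on the charts by compatible scalars `b₁`, `b₂`. -/
theorem exists_scalars_of_aut {N : GluedModule 𝔹} (hN : N.IsLineBundle) (e : GluedModule.Iso N N) :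
    ∃ (b₁ : 𝔹.B₁) (b₂ : 𝔹.B₂), 𝔹.r₁ b₁ = 𝔹.r₂ b₂ ∧ (∀ n, e.e₁ n = b₁ • n) ∧
      (∀ n, e.e₂ n = b₂ • n) ∧ (∀ y, e.e₁₂ y = 𝔹.r₁ b₁ • y) := by
  have := hN.inv₁
  have := hN.inv₂
  obtain ⟨b₁, hb₁⟩ := (Module.Invertible.toModuleEnd_bijective (R := 𝔹.B₁) (M := N.N₁)).2
    e.e₁.toLinearMap
  obtain ⟨b₂, hb₂⟩ := (Module.Invertible.toModuleEnd_bijective (R := 𝔹.B₂) (M := N.N₂)).2
    e.e₂.toLinearMap
  have h₁ : ∀ n, e.e₁ n = b₁ • n := fun n => by
    have := LinearMap.congr_fun hb₁ n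
    simpa using this.symm
  have h₂ : ∀ n, e.e₂ n = b₂ • n := fun n => by
    have := LinearMap.congr_fun hb₂ n
    simpa using this.symm
  have h₁₂ : ∀ y, e.e₁₂ y = 𝔹.r₁ b₁ • y := by
    intro y
    obtain ⟨n, m, rfl⟩ := N.surj₁ y
    rw [map_smul, e.comm₁, h₁, N.ι₁_smul, smul_comm]
  have h₁₂' : ∀ y, e.e₁₂ y = 𝔹.r₂ b₂ • y := by
    intro y
    obtain ⟨n, m, rfl⟩ := N.surj₂ y
    rw [map_smul, e.comm₂, h₂, N.ι₂_smul, smul_comm]
  refine ⟨b₁, b₂, ?_, h₁, h₂, h₁₂⟩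
  have hz : 𝔹.r₁ b₁ - 𝔹.r₂ b₂ = 0 := by
    apply eq_zero_of_smul_N₁₂_eq_zero N
    intro y
    rw [sub_smul, ← h₁₂, ← h₁₂', sub_self]
  exact sub_eq_zero.mp hz

/-- **E_aut (core).** Over a two-chart with `B₁ ∩ B₂ = R` (e.g. `𝒞.chart R`, see
`exists_algebraMap_of_map_eq`), every automorphism of a line bundle is multiplication by a unit
of the base ring `R`. -/
theorem exists_unit_smul_of_aut {N : GluedModule 𝔹} (hN : N.IsLineBundle)
    (hglob : ∀ (b₁ : 𝔹.B₁) (b₂ : 𝔹.B₂), 𝔹.r₁ b₁ = 𝔹.r₂ b₂ →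
      ∃ c : R, b₁ = algebraMap R 𝔹.B₁ c ∧ b₂ = algebraMap R 𝔹.B₂ c)
    (hinj : Function.Injective (algebraMap R 𝔹.B₁))
    (e : GluedModule.Iso N N) :
    ∃ c : Rˣ, (∀ n, e.e₁ n = (c : R) • n) ∧ (∀ n, e.e₂ n = (c : R) • n) ∧
      (∀ y, e.e₁₂ y = (c : R) • y) := by
  have := hN.inv₁
  obtain ⟨b₁, b₂, hb, h₁, h₂, h₁₂⟩ := exists_scalars_of_aut hN e
  obtain ⟨c, rfl, rfl⟩ := hglob b₁ b₂ hb
  -- the inverse automorphism
  let e' : GluedModule.Iso N N :=
    { e₁ := e.e₁.symm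
      e₂ := e.e₂.symm
      e₁₂ := e.e₁₂.symm
      comm₁ := fun n => by
        apply e.e₁₂.injective
        rw [LinearEquiv.apply_symm_apply, e.comm₁, LinearEquiv.apply_symm_apply]
      comm₂ := fun n => by
        apply e.e₁₂.injective
        rw [LinearEquiv.apply_symm_apply, e.comm₂, LinearEquiv.apply_symm_apply] }
  obtain ⟨b₁', b₂', hb', h₁', -, -⟩ := exists_scalars_of_aut hN e'
  obtain ⟨c', rfl, rfl⟩ := hglob b₁' b₂' hb'
  have hcc : c * c' = 1 := by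
    apply hinj
    apply FaithfulSMul.eq_of_smul_eq_smul (α := N.N₁)
    intro n
    have : e.e₁ (e'.e₁ n) = n := e.e₁.apply_symm_apply n
    rw [h₁, h₁', ← mul_smul, ← map_mul] at this
    rw [this, map_one, one_smul]
  refine ⟨⟨c, c', hcc, by rw [mul_comm]; exact hcc⟩, fun n => ?_, fun n => ?_, fun y => ?_⟩
  · rw [h₁, algebraMap_smul]
  · rw [h₂, algebraMap_smul]
  · rw [h₁₂, AlgHom.commutes, algebraMap_smul]

/-- **E_aut (two isomorphisms).** Two isomorphisms between line bundles over a two-chart with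
`B₁ ∩ B₂ = R` differ by a unit of `R`. -/
theorem exists_unit_smul_of_two {N N' : GluedModule 𝔹} (hN : N.IsLineBundle)
    (hglob : ∀ (b₁ : 𝔹.B₁) (b₂ : 𝔹.B₂), 𝔹.r₁ b₁ = 𝔹.r₂ b₂ →
      ∃ c : R, b₁ = algebraMap R 𝔹.B₁ c ∧ b₂ = algebraMap R 𝔹.B₂ c)
    (hinj : Function.Injective (algebraMap R 𝔹.B₁))
    (e e' : GluedModule.Iso N N') :
    ∃ c : Rˣ, (∀ n, e'.e₁ n = (c : R) • e.e₁ n) ∧ (∀ n, e'.e₂ n = (c : R) • e.e₂ n) ∧
      (∀ y, e'.e₁₂ y = (c : R) • e.e₁₂ y) := by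
  let a : GluedModule.Iso N N :=
    { e₁ := e'.e₁.trans e.e₁.symm
      e₂ := e'.e₂.trans e.e₂.symm
      e₁₂ := e'.e₁₂.trans e.e₁₂.symm
      comm₁ := fun n => by
        simp only [LinearEquiv.trans_apply]
        apply e.e₁₂.injective
        rw [LinearEquiv.apply_symm_apply, e.comm₁, LinearEquiv.apply_symm_apply, e'.comm₁]
      comm₂ := fun n => by
        simp only [LinearEquiv.trans_apply]
        apply e.e₁₂.injective
        rw [LinearEquiv.apply_symm_apply, e.comm₂, LinearEquiv.apply_symm_apply, e'.comm₂] }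
  obtain ⟨c, h₁, h₂, h₁₂⟩ := exists_unit_smul_of_aut hN hglob hinj a
  refine ⟨c, fun n => ?_, fun n => ?_, fun y => ?_⟩
  · have := congrArg e.e₁ (h₁ n)
    simp only [a, LinearEquiv.trans_apply, LinearEquiv.apply_symm_apply] at this
    rw [this, ← algebraMap_smul 𝔹.B₁ (c : R) n, map_smul, algebraMap_smul]
  · have := congrArg e.e₂ (h₂ n)
    simp only [a, LinearEquiv.trans_apply, LinearEquiv.apply_symm_apply] at this
    rw [this, ← algebraMap_smul 𝔹.B₂ (c : R) n, map_smul, algebraMap_smul]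
  · have := congrArg e.e₁₂ (h₁₂ y)
    simp only [a, LinearEquiv.trans_apply, LinearEquiv.apply_symm_apply] at this
    rw [this, ← algebraMap_smul 𝔹.B₁₂ (c : R) y, map_smul, algebraMap_smul]

end Aut

end Fermat.Agent.S25.BC.H3770
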