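/-
S25 package BC (helper3770): formal properties of `GluedModule.BaseChangeData` over an
arbitrary morphism of two-charts: uniqueness, isomorphism invariance, identity, composition,
unit, line bundles.  Complete proofs.
-/
import Fermat.Agent.S25.Defs
import Fermat.Agent.S25.BC.H3770.Univ

set_option autoImplicit false
set_option linter.style.haveILetI false

universe u

namespace Fermat.Agent.S25.BC.H3770

open Fermat.Agent.S25 GluedModule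

section general

variable {R : Type u} [CommRing R] {𝔹 : TwoChart R}

/-- An isomorphism on the first chart extends uniquely to the overlap. -/
theorem exists_equiv₁₂ (N N' : GluedModule 𝔹) (e₁ : N.N₁ ≃ₗ[𝔹.B₁] N'.N₁) :
    ∃ e₁₂ : N.N₁₂ ≃ₗ[𝔹.B₁₂] N'.N₁₂, ∀ n, e₁₂ (N.ι₁ n) = N'.ι₁ (e₁ n) := by
  letI := 𝔹.algebra₁; letI := N.module₁; letI := N'.module₁
  haveI := N.isScalarTower₁; haveI := N'.isScalarTower₁
  haveI := 𝔹.isLocalization₁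
  haveI := N.isLocalizedModule₁; haveI := N'.isLocalizedModule₁
  refine ⟨IsLocalizedModule.mapEquiv (Submonoid.powers 𝔹.f) N.ι₁ₗ N'.ι₁ₗ 𝔹.B₁₂ e₁, fun n => ?_⟩
  rw [IsLocalizedModule.mapEquiv_apply]
  exact IsLocalizedModule.map_apply (Submonoid.powers 𝔹.f) N.ι₁ₗ N'.ι₁ₗ e₁.toLinearMap n

end general

section bc

variable {R R' : Type u} [CommRing R] [CommRing R'] {φ : R →+* R'}
  {𝔹 : TwoChart R} {𝔹' : TwoChart R'} {Ψ : TwoChart.Hom φ 𝔹 𝔹'}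

theorem bcd_isUniv₁ {N : GluedModule 𝔹} {N' : GluedModule 𝔹'}
    (D : BaseChangeData Ψ N N') : IsUniv Ψ.ψ₁ D.j₁ := D.univ₁

theorem bcd_isUniv₂ {N : GluedModule 𝔹} {N' : GluedModule 𝔹'}
    (D : BaseChangeData Ψ N N') : IsUniv Ψ.ψ₂ D.j₂ := D.univ₂

theorem bcd_isSemi₁ {N : GluedModule 𝔹} {N' : GluedModule 𝔹'}
    (D : BaseChangeData Ψ N N') : IsSemi Ψ.ψ₁ D.j₁ := D.j₁_smul

theorem bcd_isSemi₂ {N : GluedModule 𝔹} {N' : GluedModule 𝔹'}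
    (D : BaseChangeData Ψ N N') : IsSemi Ψ.ψ₂ D.j₂ := D.j₂_smul

/-- Two base changes of the same glued module are isomorphic. -/
theorem nonempty_iso_of_baseChangeData {N : GluedModule 𝔹} {N' N'' : GluedModule 𝔹'}
    (D' : BaseChangeData Ψ N N') (D'' : BaseChangeData Ψ N N'') : Nonempty (N'.Iso N'') := by
  obtain ⟨e₁, he₁⟩ := (bcd_isUniv₁ D').exists_equiv (bcd_isSemi₁ D') (bcd_isUniv₁ D'') (bcd_isSemi₁ D'')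
  obtain ⟨e₂, he₂⟩ := (bcd_isUniv₂ D').exists_equiv (bcd_isSemi₂ D') (bcd_isUniv₂ D'') (bcd_isSemi₂ D'')
  obtain ⟨e₁₂, he₁₂⟩ := exists_equiv₁₂ N' N'' e₁
  have key : ∀ y : N.N₁₂, e₁₂ (D'.j₁₂ y) = D''.j₁₂ y := by
    intro y
    obtain ⟨n, m, rfl⟩ := N.surj₁ y
    rw [D'.j₁₂_smul, D''.j₁₂_smul, map_smul, D'.comm₁, D''.comm₁, he₁₂, he₁]
  refine ⟨⟨e₁, e₂, e₁₂, he₁₂, ?_⟩⟩
  letI := N''.module₂
  let g : N'.N₂ →ₗ[𝔹'.B₂] N''.N₁₂ :=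
    { toFun := fun n => e₁₂ (N'.ι₂ n)
      map_add' := fun x y => by rw [map_add, map_add]
      map_smul' := fun b n => by rw [N'.ι₂_smul, map_smul]; rfl }
  let g' : N'.N₂ →ₗ[𝔹'.B₂] N''.N₁₂ :=
    { toFun := fun n => N''.ι₂ (e₂ n)
      map_add' := fun x y => by rw [map_add, map_add]
      map_smul' := fun b n => by rw [map_smul, N''.ι₂_smul]; rfl }
  have hgg' : g = g' := (bcd_isUniv₂ D').hom_ext (bcd_isSemi₂ D') g g' (fun n => by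
    change e₁₂ (N'.ι₂ (D'.j₂ n)) = N''.ι₂ (e₂ (D'.j₂ n))
    rw [← D'.comm₂, key, he₂, D''.comm₂])
  intro n
  exact DFunLike.congr_fun hgg' n

/-- Base change data can be transported along isomorphisms on both sides. -/
noncomputable def bcdOfIso {L M : GluedModule 𝔹} {L' M' : GluedModule 𝔹'}
    (D : BaseChangeData Ψ L L') (e : L.Iso M) (e' : L'.Iso M') : BaseChangeData Ψ M M' where
  j₁ := (e'.e₁.toLinearMap.toAddMonoidHom.comp D.j₁).comp e.e₁.symm.toLinearMap.toAddMonoidHom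
  j₂ := (e'.e₂.toLinearMap.toAddMonoidHom.comp D.j₂).comp e.e₂.symm.toLinearMap.toAddMonoidHom
  j₁₂ := (e'.e₁₂.toLinearMap.toAddMonoidHom.comp D.j₁₂).comp
    e.e₁₂.symm.toLinearMap.toAddMonoidHom
  j₁_smul b n := by
    change e'.e₁ (D.j₁ (e.e₁.symm (b • n))) = Ψ.ψ₁ b • e'.e₁ (D.j₁ (e.e₁.symm n))
    rw [map_smul, D.j₁_smul, map_smul]
  j₂_smul b n := by
    change e'.e₂ (D.j₂ (e.e₂.symm (b • n))) = Ψ.ψ₂ b • e'.e₂ (D.j₂ (e.e₂.symm n))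
    rw [map_smul, D.j₂_smul, map_smul]
  j₁₂_smul b n := by
    change e'.e₁₂ (D.j₁₂ (e.e₁₂.symm (b • n))) = Ψ.ψ₁₂ b • e'.e₁₂ (D.j₁₂ (e.e₁₂.symm n))
    rw [map_smul, D.j₁₂_smul, map_smul]
  comm₁ n := by
    change e'.e₁₂ (D.j₁₂ (e.e₁₂.symm (M.ι₁ n))) = M'.ι₁ (e'.e₁ (D.j₁ (e.e₁.symm n)))
    rw [← e'.comm₁, ← D.comm₁, show e.e₁₂.symm (M.ι₁ n) = L.ι₁ (e.e₁.symm n) from e.symm.comm₁ n]
  comm₂ n := by
    change e'.e₁₂ (D.j₁₂ (e.e₁₂.symm (M.ι₂ n))) = M'.ι₂ (e'.e₂ (D.j₂ (e.e₂.symm n)))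
    rw [← e'.comm₂, ← D.comm₂, show e.e₁₂.symm (M.ι₂ n) = L.ι₂ (e.e₂.symm n) from e.symm.comm₂ n]
  univ₁ := (bcd_isUniv₁ D).of_equiv e.e₁ e'.e₁ _ (fun n => by
    change e'.e₁ (D.j₁ (e.e₁.symm (e.e₁ n))) = e'.e₁ (D.j₁ n)
    rw [LinearEquiv.symm_apply_apply])
  univ₂ := (bcd_isUniv₂ D).of_equiv e.e₂ e'.e₂ _ (fun n => by
    change e'.e₂ (D.j₂ (e.e₂.symm (e.e₂ n))) = e'.e₂ (D.j₂ n)
    rw [LinearEquiv.symm_apply_apply])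

/-- The unit is the base change of the unit. -/
noncomputable def bcdUnit (Ψ : TwoChart.Hom φ 𝔹 𝔹') :
    BaseChangeData Ψ (GluedModule.unit 𝔹) (GluedModule.unit 𝔹') where
  j₁ := Ψ.ψ₁.toAddMonoidHom
  j₂ := Ψ.ψ₂.toAddMonoidHom
  j₁₂ := Ψ.ψ₁₂.toAddMonoidHom
  j₁_smul b n := map_mul Ψ.ψ₁ b n
  j₂_smul b n := map_mul Ψ.ψ₂ b n
  j₁₂_smul b n := map_mul Ψ.ψ₁₂ b n
  comm₁ n := Ψ.comm₁ n
  comm₂ n := Ψ.comm₂ n
  univ₁ := isUniv_ringHom Ψ.ψ₁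
  univ₂ := isUniv_ringHom Ψ.ψ₂

/-- Line bundles are stable under base change. -/
theorem isLineBundle_of_baseChangeData {N : GluedModule 𝔹} {N' : GluedModule 𝔹'}
    (D : BaseChangeData Ψ N N') (hN : N.IsLineBundle) : N'.IsLineBundle := by
  have := hN.inv₁
  have := hN.inv₂
  exact ⟨(bcd_isUniv₁ D).invertible (bcd_isSemi₁ D), (bcd_isUniv₂ D).invertible (bcd_isSemi₂ D)⟩

/-- An isomorphism is a base change along a morphism of two-charts acting as the identity. -/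
noncomputable def bcdOfIsoOfId {φ₀ : R →+* R} {Ψ₀ : TwoChart.Hom φ₀ 𝔹 𝔹}
    (h₁ : ∀ b, Ψ₀.ψ₁ b = b) (h₂ : ∀ b, Ψ₀.ψ₂ b = b) (h₁₂ : ∀ b, Ψ₀.ψ₁₂ b = b)
    {N N' : GluedModule 𝔹} (e : N.Iso N') : BaseChangeData Ψ₀ N N' where
  j₁ := e.e₁.toLinearMap.toAddMonoidHom
  j₂ := e.e₂.toLinearMap.toAddMonoidHom
  j₁₂ := e.e₁₂.toLinearMap.toAddMonoidHom
  j₁_smul b n := by rw [h₁]; exact map_smul e.e₁ b n
  j₂_smul b n := by rw [h₂]; exact map_smul e.e₂ b n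
  j₁₂_smul b n := by rw [h₁₂]; exact map_smul e.e₁₂ b n
  comm₁ n := e.comm₁ n
  comm₂ n := e.comm₂ n
  univ₁ := (isUniv_id e.e₁).congr (fun b => (h₁ b).symm)
  univ₂ := (isUniv_id e.e₂).congr (fun b => (h₂ b).symm)

/-- Composition of base changes. -/
noncomputable def bcdComp {R'' : Type u} [CommRing R''] {φ' : R' →+* R''}
    {φ'' : R →+* R''} {𝔹'' : TwoChart R''} {Ψ' : TwoChart.Hom φ' 𝔹' 𝔹''}
    {Ψ'' : TwoChart.Hom φ'' 𝔹 𝔹''}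
    (h₁ : ∀ b, Ψ''.ψ₁ b = Ψ'.ψ₁ (Ψ.ψ₁ b)) (h₂ : ∀ b, Ψ''.ψ₂ b = Ψ'.ψ₂ (Ψ.ψ₂ b))
    (h₁₂ : ∀ b, Ψ''.ψ₁₂ b = Ψ'.ψ₁₂ (Ψ.ψ₁₂ b))
    {N : GluedModule 𝔹} {N' : GluedModule 𝔹'} {N'' : GluedModule 𝔹''}
    (D : BaseChangeData Ψ N N') (D' : BaseChangeData Ψ' N' N'') : BaseChangeData Ψ'' N N'' where
  j₁ := D'.j₁.comp D.j₁
  j₂ := D'.j₂.comp D.j₂
  j₁₂ := D'.j₁₂.comp D.j₁₂
  j₁_smul b n := by
    change D'.j₁ (D.j₁ (b • n)) = Ψ''.ψ₁ b • D'.j₁ (D.j₁ n)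
    rw [D.j₁_smul, D'.j₁_smul, h₁]
  j₂_smul b n := by
    change D'.j₂ (D.j₂ (b • n)) = Ψ''.ψ₂ b • D'.j₂ (D.j₂ n)
    rw [D.j₂_smul, D'.j₂_smul, h₂]
  j₁₂_smul b n := by
    change D'.j₁₂ (D.j₁₂ (b • n)) = Ψ''.ψ₁₂ b • D'.j₁₂ (D.j₁₂ n)
    rw [D.j₁₂_smul, D'.j₁₂_smul, h₁₂]
  comm₁ n := by
    change D'.j₁₂ (D.j₁₂ (N.ι₁ n)) = N''.ι₁ (D'.j₁ (D.j₁ n))
    rw [D.comm₁, D'.comm₁]
  comm₂ n := by
    change D'.j₁₂ (D.j₁₂ (N.ι₂ n)) = N''.ι₂ (D'.j₂ (D.j₂ n))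
    rw [D.comm₂, D'.comm₂]
  univ₁ := ((bcd_isUniv₁ D).comp (bcd_isUniv₁ D') (bcd_isSemi₁ D')).congr (fun b => (h₁ b).symm)
  univ₂ := ((bcd_isUniv₂ D).comp (bcd_isUniv₂ D') (bcd_isSemi₂ D')).congr (fun b => (h₂ b).symm)

end bc

end Fermat.Agent.S25.BC.H3770
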