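/-
S25 package BC (helper3770): all thirteen stub statements of `Fermat/Agent/S25/BC.lean`
(base change of glued modules over `𝒞.chart`, `Pic⁰` basics, automorphisms), proved in the
namespace `Fermat.Agent.S25.BC.H3770`.  Complete proofs.
-/
import Fermat.Agent.S25.Defs
import Fermat.Agent.S25.BC.H3770.Univ
import Fermat.Agent.S25.BC.H3770.Glued
import Fermat.Agent.S25.BC.H3770.Exists
import Fermat.Agent.S25.BC.H3770.GlobUnits

set_option autoImplicit false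
set_option linter.style.haveILetI false

universe u

namespace Fermat.Agent.S25.BC.H3770

open scoped TensorProduct

open Fermat.Agent.S25 GluedModule

variable {k : Type u} [Field k] (𝒞 : CurveData k)

/-! ### The morphisms `𝒞.chartHom φ` pointwise -/

section chartHom

variable {R R' R'' : Type u} [CommRing R] [Algebra k R] [CommRing R'] [Algebra k R']
  [CommRing R''] [Algebra k R'']

theorem chartHom_ψ₁_tmul (φ : R →ₐ[k] R') (r : R) (a : 𝒞.A₁) :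
    (𝒞.chartHom φ).ψ₁ (r ⊗ₜ[k] a) = φ r ⊗ₜ[k] a := rfl

theorem chartHom_ψ₂_tmul (φ : R →ₐ[k] R') (r : R) (a : 𝒞.A₂) :
    (𝒞.chartHom φ).ψ₂ (r ⊗ₜ[k] a) = φ r ⊗ₜ[k] a := rfl

theorem chartHom_ψ₁₂_tmul (φ : R →ₐ[k] R') (r : R) (a : 𝒞.A₁₂) :
    (𝒞.chartHom φ).ψ₁₂ (r ⊗ₜ[k] a) = φ r ⊗ₜ[k] a := rfl

theorem tmap_id_apply (A : Type u) [CommRing A] [Algebra k A] (b : R ⊗[k] A) :
    Algebra.TensorProduct.map (AlgHom.id k R) (AlgHom.id k A) b = b := by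
  induction b using TensorProduct.induction_on with
  | zero => simp
  | tmul r a => simp
  | add x y hx hy => simp only [map_add, hx, hy]

theorem tmap_comp_apply (A : Type u) [CommRing A] [Algebra k A] (φ : R →ₐ[k] R')
    (ψ : R' →ₐ[k] R'') (b : R ⊗[k] A) :
    Algebra.TensorProduct.map (ψ.comp φ) (AlgHom.id k A) b =
      Algebra.TensorProduct.map ψ (AlgHom.id k A)
        (Algebra.TensorProduct.map φ (AlgHom.id k A) b) := by
  induction b using TensorProduct.induction_on with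
  | zero => simp
  | tmul r a => simp
  | add x y hx hy => simp only [map_add, hx, hy]

theorem chartHom_id₁ (b : (𝒞.chart R).B₁) : (𝒞.chartHom (AlgHom.id k R)).ψ₁ b = b :=
  tmap_id_apply 𝒞.A₁ b

theorem chartHom_id₂ (b : (𝒞.chart R).B₂) : (𝒞.chartHom (AlgHom.id k R)).ψ₂ b = b :=
  tmap_id_apply 𝒞.A₂ b

theorem chartHom_id₁₂ (b : (𝒞.chart R).B₁₂) : (𝒞.chartHom (AlgHom.id k R)).ψ₁₂ b = b :=
  tmap_id_apply 𝒞.A₁₂ b

theorem chartHom_comp₁ (φ : R →ₐ[k] R') (ψ : R' →ₐ[k] R'') (b : (𝒞.chart R).B₁) :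
    (𝒞.chartHom (ψ.comp φ)).ψ₁ b = (𝒞.chartHom ψ).ψ₁ ((𝒞.chartHom φ).ψ₁ b) :=
  tmap_comp_apply 𝒞.A₁ φ ψ b

theorem chartHom_comp₂ (φ : R →ₐ[k] R') (ψ : R' →ₐ[k] R'') (b : (𝒞.chart R).B₂) :
    (𝒞.chartHom (ψ.comp φ)).ψ₂ b = (𝒞.chartHom ψ).ψ₂ ((𝒞.chartHom φ).ψ₂ b) :=
  tmap_comp_apply 𝒞.A₂ φ ψ b

theorem chartHom_comp₁₂ (φ : R →ₐ[k] R') (ψ : R' →ₐ[k] R'') (b : (𝒞.chart R).B₁₂) :
    (𝒞.chartHom (ψ.comp φ)).ψ₁₂ b = (𝒞.chartHom ψ).ψ₁₂ ((𝒞.chartHom φ).ψ₁₂ b) :=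
  tmap_comp_apply 𝒞.A₁₂ φ ψ b

/-- The rigidifying point is compatible with base change (tensor form). -/
theorem eps_tmap (φ : R →ₐ[k] R') (b : R ⊗[k] 𝒞.A₁) :
    Algebra.TensorProduct.lift (AlgHom.id R' R') ((Algebra.ofId k R').comp 𝒞.ε)
        (fun _ _ => Commute.all _ _) (Algebra.TensorProduct.map φ (AlgHom.id k 𝒞.A₁) b) =
      φ (Algebra.TensorProduct.lift (AlgHom.id R R) ((Algebra.ofId k R).comp 𝒞.ε)
        (fun _ _ => Commute.all _ _) b) := by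
  induction b using TensorProduct.induction_on with
  | zero => simp
  | tmul r a => simp [Algebra.ofId_apply]
  | add x y hx hy => simp only [map_add, hx, hy]

/-- The rigidifying point is compatible with base change. -/
theorem epsR_chartHom (φ : R →ₐ[k] R') (b : (𝒞.chart R).B₁) :
    𝒞.epsR R' ((𝒞.chartHom φ).ψ₁ b) = φ (𝒞.epsR R b) :=
  eps_tmap 𝒞 φ b

end chartHom

/-! ### The stub statements: base change -/

theorem thm_exists_isBC {R R' : Type u} [CommRing R] [Algebra k R] [CommRing R'] [Algebra k R']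
    (φ : R →ₐ[k] R') (L : GluedModule (𝒞.chart R)) :
    ∃ L' : GluedModule (𝒞.chart R'), IsBC (𝒞.chartHom φ) L L' :=
  ⟨baseChange (𝒞.chartHom φ) L, ⟨bcdBaseChange (𝒞.chartHom φ) L⟩⟩

theorem thm_isBC_unique {R R' : Type u} [CommRing R] [Algebra k R] [CommRing R'] [Algebra k R']
    (φ : R →ₐ[k] R') (L : GluedModule (𝒞.chart R)) (L' L'' : GluedModule (𝒞.chart R'))
    (h' : IsBC (𝒞.chartHom φ) L L') (h'' : IsBC (𝒞.chartHom φ) L L'') :
    Nonempty (L'.Iso L'') := by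
  obtain ⟨D'⟩ := h'
  obtain ⟨D''⟩ := h''
  exact nonempty_iso_of_baseChangeData D' D''

theorem thm_isBC_of_iso {R R' : Type u} [CommRing R] [Algebra k R] [CommRing R'] [Algebra k R']
    (φ : R →ₐ[k] R') (L M : GluedModule (𝒞.chart R)) (L' M' : GluedModule (𝒞.chart R'))
    (h : IsBC (𝒞.chartHom φ) L L') (e : Nonempty (L.Iso M)) (e' : Nonempty (L'.Iso M')) :
    IsBC (𝒞.chartHom φ) M M' := by
  obtain ⟨D⟩ := h
  obtain ⟨e⟩ := e
  obtain ⟨e'⟩ := e'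
  exact ⟨bcdOfIso D e e'⟩

theorem thm_isBC_id_iff {R : Type u} [CommRing R] [Algebra k R]
    (L L' : GluedModule (𝒞.chart R)) :
    IsBC (𝒞.chartHom (AlgHom.id k R)) L L' ↔ Nonempty (L.Iso L') := by
  constructor
  · rintro ⟨D⟩
    exact nonempty_iso_of_baseChangeData
      (bcdOfIsoOfId (chartHom_id₁ 𝒞) (chartHom_id₂ 𝒞) (chartHom_id₁₂ 𝒞) (Iso.refl L)) D
  · rintro ⟨e⟩
    exact ⟨bcdOfIsoOfId (chartHom_id₁ 𝒞) (chartHom_id₂ 𝒞) (chartHom_id₁₂ 𝒞) e⟩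

theorem thm_isBC_comp {R R' R'' : Type u} [CommRing R] [Algebra k R] [CommRing R']
    [Algebra k R'] [CommRing R''] [Algebra k R''] (φ : R →ₐ[k] R') (ψ : R' →ₐ[k] R'')
    (L : GluedModule (𝒞.chart R)) (L' : GluedModule (𝒞.chart R'))
    (L'' : GluedModule (𝒞.chart R'')) (h : IsBC (𝒞.chartHom φ) L L')
    (h' : IsBC (𝒞.chartHom ψ) L' L'') : IsBC (𝒞.chartHom (ψ.comp φ)) L L'' := by
  obtain ⟨D⟩ := h
  obtain ⟨D'⟩ := h'
  exact ⟨bcdComp (chartHom_comp₁ 𝒞 φ ψ) (chartHom_comp₂ 𝒞 φ ψ) (chartHom_comp₁₂ 𝒞 φ ψ) D D'⟩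

theorem thm_isBC_unit {R R' : Type u} [CommRing R] [Algebra k R] [CommRing R'] [Algebra k R']
    (φ : R →ₐ[k] R') :
    IsBC (𝒞.chartHom φ) (GluedModule.unit (𝒞.chart R)) (GluedModule.unit (𝒞.chart R')) :=
  ⟨bcdUnit (𝒞.chartHom φ)⟩

theorem thm_isLineBundle_of_isBC {R R' : Type u} [CommRing R] [Algebra k R] [CommRing R']
    [Algebra k R'] (φ : R →ₐ[k] R') (L : GluedModule (𝒞.chart R))
    (L' : GluedModule (𝒞.chart R')) (hL : L.IsLineBundle) (h : IsBC (𝒞.chartHom φ) L L') :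
    L'.IsLineBundle := by
  obtain ⟨D⟩ := h
  exact isLineBundle_of_baseChangeData D hL

theorem thm_isLineBundle_of_iso {R : Type u} [CommRing R] [Algebra k R]
    (L L' : GluedModule (𝒞.chart R)) (hL : L.IsLineBundle) (e : Nonempty (L.Iso L')) :
    L'.IsLineBundle := by
  obtain ⟨e⟩ := e
  have := hL.inv₁
  have := hL.inv₂
  exact ⟨Module.Invertible.congr e.e₁, Module.Invertible.congr e.e₂⟩

theorem thm_chi_congr {K : Type u} [Field K] [Algebra k K] (N N' : GluedModule (𝒞.chart K))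
    (e : Nonempty (N.Iso N')) : GluedModule.chi N = GluedModule.chi N' := by
  obtain ⟨e⟩ := e
  unfold GluedModule.chi
  rw [e.H0.finrank_eq, e.H1.finrank_eq]

/-! ### Rigidity -/

section rigid

variable {R R' : Type u} [CommRing R] [Algebra k R] [CommRing R'] [Algebra k R']

/-- `Rigid` in terms of the universal property `IsUniv` along `ε`. -/
theorem rigid_iff (N : GluedModule (𝒞.chart R)) :
    Rigid 𝒞 N ↔ ∃ e : N.N₁ →+ R, IsSemi (𝒞.epsR R).toRingHom e ∧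
      IsUniv (𝒞.epsR R).toRingHom e := by
  have hlin : ∀ {Q : Type u} [AddCommGroup Q] [Module R Q] (h : N.N₁ →+ Q),
      (∀ (b : (𝒞.chart R).B₁) (n : N.N₁), h (b • n) = 𝒞.epsR R b • h n) →
      ∀ (r : R) (n : N.N₁), h (r • n) = r • h n := by
    intro Q _ _ h hh r n
    rw [← algebraMap_smul (𝒞.chart R).B₁ r n, hh, AlgHom.commutes]
    rfl
  constructor
  · rintro ⟨e, he, hu⟩
    refine ⟨e.toAddMonoidHom, fun b n => he b n, ?_⟩
    intro Q _ _ h hh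
    let h₀ : N.N₁ →ₗ[R] Q :=
      { toFun := h
        map_add' := map_add h
        map_smul' := fun r n => hlin h hh r n }
    exact hu Q h₀ hh
  · rintro ⟨e, he, hu⟩
    let e₀ : N.N₁ →ₗ[R] R :=
      { toFun := e
        map_add' := map_add e
        map_smul' := fun r n => hlin e he r n }
    refine ⟨e₀, fun b n => he b n, ?_⟩
    intro Q _ _ h hh
    exact hu Q h.toAddMonoidHom hh

theorem rigid_unit : Rigid 𝒞 (GluedModule.unit (𝒞.chart R)) := by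
  rw [rigid_iff]
  exact ⟨(𝒞.epsR R).toRingHom.toAddMonoidHom, fun b n => map_mul (𝒞.epsR R) b n,
    isUniv_ringHom (𝒞.epsR R).toRingHom⟩

theorem rigid_of_iso {L L' : GluedModule (𝒞.chart R)} (hL : Rigid 𝒞 L) (e : L.Iso L') :
    Rigid 𝒞 L' := by
  rw [rigid_iff] at hL ⊢
  obtain ⟨e₀, hs, hu⟩ := hL
  refine ⟨e₀.comp e.e₁.symm.toLinearMap.toAddMonoidHom, ?_, ?_⟩
  · exact hs.of_equiv e.e₁ (LinearEquiv.refl R R) _ (fun n => by
      change e₀ (e.e₁.symm (e.e₁ n)) = e₀ n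
      rw [LinearEquiv.symm_apply_apply])
  · exact hu.of_equiv e.e₁ (LinearEquiv.refl R R) _ (fun n => by
      change e₀ (e.e₁.symm (e.e₁ n)) = e₀ n
      rw [LinearEquiv.symm_apply_apply])

theorem rigid_of_baseChangeData (φ : R →ₐ[k] R') {L : GluedModule (𝒞.chart R)}
    {L' : GluedModule (𝒞.chart R')} (hL : Rigid 𝒞 L)
    (D : BaseChangeData (𝒞.chartHom φ) L L') : Rigid 𝒞 L' := by
  rw [rigid_iff] at hL ⊢
  obtain ⟨e₀, hs, hu⟩ := hL
  -- `k₀ = φ ∘ e₀` is universal over `φ ∘ ε = ε' ∘ ψ₁`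
  have hφs : IsSemi (φ : R →+* R') (φ : R →+* R').toAddMonoidHom := fun r x => map_mul φ r x
  have hk₀u : IsUniv ((φ : R →+* R').comp (𝒞.epsR R).toRingHom)
      ((φ : R →+* R').toAddMonoidHom.comp e₀) :=
    hu.comp (isUniv_ringHom (φ : R →+* R')) hφs
  have hk₀s : IsSemi ((φ : R →+* R').comp (𝒞.epsR R).toRingHom)
      ((φ : R →+* R').toAddMonoidHom.comp e₀) := hs.comp hφs
  have hcomm : ∀ b, ((φ : R →+* R').comp (𝒞.epsR R).toRingHom) b =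
      ((𝒞.epsR R').toRingHom.comp (𝒞.chartHom φ).ψ₁) b := fun b => (epsR_chartHom 𝒞 φ b).symm
  have hk₀u' := hk₀u.congr hcomm
  have hk₀s' := hk₀s.congr hcomm
  obtain ⟨e', hs', he'⟩ := (bcd_isUniv₁ D).exists_semi_lift
    (ψ' := (𝒞.epsR R').toRingHom) ((φ : R →+* R').toAddMonoidHom.comp e₀) hk₀s'
  refine ⟨e', hs', ?_⟩
  have hcomp : e'.comp D.j₁ = (φ : R →+* R').toAddMonoidHom.comp e₀ :=
    AddMonoidHom.ext he'
  exact (bcd_isUniv₁ D).of_comp (bcd_isSemi₁ D) hs' (hcomp ▸ hk₀u')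

end rigid

/-! ### `Deg0` and `IsPic0` -/

theorem deg0_unit (R : Type u) [CommRing R] [Algebra k R] :
    Deg0 𝒞 (GluedModule.unit (𝒞.chart R)) := by
  intro κ _ _ _ φ N' hN'
  obtain ⟨D⟩ := hN'
  exact thm_chi_congr 𝒞 _ _ (nonempty_iso_of_baseChangeData D (bcdUnit (𝒞.chartHom φ)))

theorem deg0_of_iso {R : Type u} [CommRing R] [Algebra k R] {L L' : GluedModule (𝒞.chart R)}
    (hL : Deg0 𝒞 L) (e : L.Iso L') : Deg0 𝒞 L' := by
  intro κ _ _ _ φ N' hN'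
  obtain ⟨D⟩ := hN'
  exact hL κ φ N' ⟨bcdOfIso D e.symm (Iso.refl N')⟩

theorem deg0_of_baseChangeData {R R' : Type u} [CommRing R] [Algebra k R] [CommRing R']
    [Algebra k R'] (φ : R →ₐ[k] R') {L : GluedModule (𝒞.chart R)}
    {L' : GluedModule (𝒞.chart R')} (hL : Deg0 𝒞 L)
    (D : BaseChangeData (𝒞.chartHom φ) L L') : Deg0 𝒞 L' := by
  intro κ _ _ _ ψ N'' hN''
  obtain ⟨D'⟩ := hN''
  exact hL κ (ψ.comp φ) N''
    ⟨bcdComp (chartHom_comp₁ 𝒞 φ ψ) (chartHom_comp₂ 𝒞 φ ψ) (chartHom_comp₁₂ 𝒞 φ ψ) D D'⟩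

theorem thm_isPic0_of_iso {R : Type u} [CommRing R] [Algebra k R]
    (L L' : GluedModule (𝒞.chart R)) (hL : IsPic0 𝒞 L) (e : Nonempty (L.Iso L')) :
    IsPic0 𝒞 L' := by
  obtain ⟨e⟩ := e
  exact ⟨thm_isLineBundle_of_iso 𝒞 L L' hL.lineBundle ⟨e⟩, rigid_of_iso 𝒞 hL.rigid e,
    deg0_of_iso 𝒞 hL.deg0 e⟩

theorem thm_isPic0_of_isBC {R R' : Type u} [CommRing R] [Algebra k R] [CommRing R']
    [Algebra k R'] (φ : R →ₐ[k] R') (L : GluedModule (𝒞.chart R))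
    (L' : GluedModule (𝒞.chart R')) (hL : IsPic0 𝒞 L) (h : IsBC (𝒞.chartHom φ) L L') :
    IsPic0 𝒞 L' := by
  obtain ⟨D⟩ := h
  exact ⟨isLineBundle_of_baseChangeData D hL.lineBundle, rigid_of_baseChangeData 𝒞 φ hL.rigid D,
    deg0_of_baseChangeData 𝒞 φ hL.deg0 D⟩

theorem thm_isPic0_unit (R : Type u) [CommRing R] [Algebra k R] :
    IsPic0 𝒞 (GluedModule.unit (𝒞.chart R)) :=
  ⟨unit_isLineBundle _, rigid_unit 𝒞, deg0_unit 𝒞 R⟩

/-! ### Automorphisms -/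

theorem thm_aut_eq_units {R : Type u} [CommRing R] [Algebra k R]
    (L : GluedModule (𝒞.chart R)) (hL : L.IsLineBundle) (α : L.Iso L) :
    ∃! r : Rˣ, (∀ n, α.e₁ n = (r : R) • n) ∧ (∀ n, α.e₂ n = (r : R) • n) ∧
      (∀ n, α.e₁₂ n = (r : R) • n) := by
  haveI := 𝒞.dom₁
  have hinj : Function.Injective (algebraMap R (𝒞.chart R).B₁) :=
    algebraMap_tensor_injective (k := k) (A₁ := 𝒞.A₁) R
  have hglob : ∀ (b₁ : (𝒞.chart R).B₁) (b₂ : (𝒞.chart R).B₂),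
      (𝒞.chart R).r₁ b₁ = (𝒞.chart R).r₂ b₂ →
      ∃ c : R, b₁ = algebraMap R (𝒞.chart R).B₁ c ∧ b₂ = algebraMap R (𝒞.chart R).B₂ c :=
    fun b₁ b₂ h => exists_algebraMap_of_map_eq 𝒞.r₁ 𝒞.r₂ 𝒞.inj₂ 𝒞.glob R b₁ b₂ h
  obtain ⟨c, h₁, h₂, h₁₂⟩ := exists_unit_smul_of_aut hL hglob hinj α
  refine ⟨c, ⟨h₁, h₂, h₁₂⟩, ?_⟩
  rintro c' ⟨h₁', -, -⟩
  have := hL.inv₁
  apply Units.ext
  apply hinj
  apply FaithfulSMul.eq_of_smul_eq_smul (α := L.N₁)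
  intro n
  rw [algebraMap_smul, algebraMap_smul, ← h₁, ← h₁']

end Fermat.Agent.S25.BC.H3770
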